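import Mathlib.MeasureTheory.Constructions.Polish.Basic
import Mathlib.Topology.MetricSpace.PiNat
import Mathlib.Topology.Compactness.SigmaCompact
import Mathlib.Topology.Baire.CompleteMetrizable
import Mathlib.Topology.Baire.Lemmas

/-!
# The Hurewicz scheme

An analytic set that is not covered by countably many compact sets carries a scheme of Baire
cylinders whose images are uniformly separated at each node, and so a closed copy of Baire space.
-/

set_option autoImplicit false

universe u

namespace FA.Hurewicz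

open Set Topology Filter PiNat Metric

variable {X : Type u}

/-- Contained in a sigma-compact set. -/
def SigmaBounded [TopologicalSpace X] (A : Set X) : Prop :=
  ∃ K, IsSigmaCompact K ∧ A ⊆ K

section Metric

variable [MetricSpace X] [CompleteSpace X]

/-- An unbounded image contains a separated sequence. -/
theorem exists_separated {S : Set X} (hS : ¬SigmaBounded S) :
    ∃ ε : ℝ, 0 < ε ∧ ∃ y : ℕ → X, (∀ n, y n ∈ S) ∧
      Pairwise fun m n => ε ≤ dist (y m) (y n) := by
  classical
  have hnt : ¬TotallyBounded (closure S) := fun h =>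
    hS ⟨_, (h.isCompact_of_isClosed isClosed_closure).isSigmaCompact, subset_closure⟩
  rw [totallyBounded_closure, Metric.totallyBounded_iff] at hnt
  simp only [not_forall, not_exists, not_and] at hnt
  obtain ⟨ε, hε, h⟩ := hnt
  have : Std.Symm fun a b : X => ε ≤ dist a b := ⟨fun a b hab => dist_comm a b ▸ hab⟩
  obtain ⟨y, hy, hsep⟩ := exists_seq_of_forall_finset_exists' (· ∈ S) (fun a b => ε ≤ dist a b)
    fun s _ => by
      obtain ⟨x, hxS, hx⟩ := Set.not_subset.1 (h (↑s) s.finite_toSet)
      simp only [mem_iUnion₂, mem_ball, not_exists, not_lt] at hx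
      exact ⟨x, hxS, fun a ha => dist_comm x a ▸ hx a ha⟩
  exact ⟨ε, hε, y, hy, hsep⟩

omit [CompleteSpace X] in
/-- The images of small cylinders are near. -/
theorem exists_small_cylinder {f : (ℕ → ℕ) → X} (hf : Continuous f) (z : ℕ → ℕ) {r : ℝ}
    (hr : 0 < r) (n : ℕ) : ∃ N, n < N ∧ ∀ w ∈ cylinder z N, dist (f w) (f z) < r := by
  have hmem : f ⁻¹' ball (f z) r ∈ 𝓝 z := hf.continuousAt.preimage_mem_nhds (ball_mem_nhds _ hr)
  obtain ⟨_, ⟨x, N, rfl⟩, hz, hsub⟩ :=
    (isTopologicalBasis_cylinders fun _ : ℕ => ℕ).mem_nhds_iff.1 hmem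
  refine ⟨max N (n + 1), lt_of_lt_of_le (Nat.lt_succ_self n) (le_max_right _ _), fun w hw => ?_⟩
  rw [← mem_cylinder_iff_eq.1 hz] at hsub
  exact hsub (cylinder_anti z (le_max_left N (n + 1)) hw)

/-- **The scheme gives a closed copy of Baire space.** -/
theorem exists_closed_copy {f : (ℕ → ℕ) → X} (hf : Continuous f) {F : Set (ℕ → ℕ)}
    (hF : F.Nonempty) (hbig : ∀ z ∈ F, ∀ n, ¬SigmaBounded (f '' (cylinder z n ∩ F))) :
    ∃ e : (ℕ → ℕ) → X, IsClosedEmbedding e ∧ range e ⊆ range f := by
  let Node := {p : (ℕ → ℕ) × ℕ // p.1 ∈ F}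
  have hstep : ∀ p : Node, ∃ (ε : ℝ) (c : ℕ → Node), 0 < ε ∧
      (∀ k, (c k).1.1 ∈ cylinder p.1.1 p.1.2 ∧ p.1.2 < (c k).1.2 ∧
        ∀ w ∈ cylinder (c k).1.1 (c k).1.2, dist (f w) (f (c k).1.1) < ε / 4) ∧
      Pairwise fun k l => ε ≤ dist (f (c k).1.1) (f (c l).1.1) := by
    intro p
    obtain ⟨ε, hε, y, hy, hsep⟩ := exists_separated (hbig _ p.2 p.1.2)
    choose z hz hzy using hy
    choose N hN hclose using fun k =>
      exists_small_cylinder hf (z k) (show 0 < ε / 4 by linarith) p.1.2
    refine ⟨ε, fun k => ⟨(z k, N k), (hz k).2⟩, hε, fun k => ⟨(hz k).1, hN k, hclose k⟩, ?_⟩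
    intro k l hkl
    simpa only [hzy] using hsep hkl
  choose ε c hε hc hsep using hstep
  obtain ⟨z₀, hz₀⟩ := hF
  let node : (ℕ → ℕ) → ℕ → Node := fun x n =>
    Nat.rec ⟨(z₀, 0), hz₀⟩ (fun i p => c p (x i)) n
  have hlevel : ∀ x n, n ≤ (node x n).1.2 := fun x n => by
    induction n with
    | zero => exact Nat.zero_le _
    | succ n ih => exact lt_of_le_of_lt ih (hc (node x n) (x n)).2.1
  have hdesc : ∀ x m n, m ≤ n →
      cylinder (node x n).1.1 (node x n).1.2 ⊆ cylinder (node x m).1.1 (node x m).1.2 := by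
    intro x m n h
    induction h with
    | refl => exact subset_rfl
    | @step i _ ih =>
      refine subset_trans ?_ ih
      have h1 := (hc (node x i) (x i)).1
      rw [← mem_cylinder_iff_eq.1 h1]
      exact cylinder_anti _ (hc (node x i) (x i)).2.1.le
  let lim : (ℕ → ℕ) → ℕ → ℕ := fun x i => (node x (i + 1)).1.1 i
  have hlim : ∀ x n, lim x ∈ cylinder (node x n).1.1 (node x n).1.2 := fun x n i hi => by
    rcases le_total n (i + 1) with h | h
    · exact hdesc x n (i + 1) h (self_mem_cylinder _ _) i hi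
    · exact (hdesc x (i + 1) n h (self_mem_cylinder _ _) i
        (lt_of_lt_of_le (Nat.lt_succ_self i) (hlevel x (i + 1)))).symm
  have hnode : ∀ x x' n, (∀ i < n, x i = x' i) → node x n = node x' n := by
    intro x x' n
    induction n with
    | zero => exact fun _ => rfl
    | succ n ih =>
      intro h
      change c (node x n) (x n) = c (node x' n) (x' n)
      rw [ih fun i hi => h i (Nat.lt_succ_of_lt hi), h n (Nat.lt_succ_self n)]
  have hcont : Continuous lim := continuous_pi fun i => continuous_discrete_rng.2 fun b =>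
    isOpen_iff_mem_nhds.2 fun x hx => Filter.mem_of_superset
      ((isOpen_cylinder (fun _ : ℕ => ℕ) x (i + 1)).mem_nhds (self_mem_cylinder x _))
      fun x' hx' => by
        have : lim x' i = lim x i := by
          change (node x' (i + 1)).1.1 i = (node x (i + 1)).1.1 i
          rw [hnode x' x (i + 1) hx']
        exact this.trans hx
  let e : (ℕ → ℕ) → X := fun x => f (lim x)
  have hnear : ∀ x n, dist (e x) (f (c (node x n) (x n)).1.1) < ε (node x n) / 4 := fun x n =>
    (hc (node x n) (x n)).2.2 _ (hlim x (n + 1))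
  -- convergence of the values forces convergence of the branches
  have hconv : ∀ (x : ℕ → ℕ → ℕ) (y : X), Tendsto (fun m => e (x m)) atTop (𝓝 y) →
      ∃ b : ℕ → ℕ, Tendsto x atTop (𝓝 b) := by
    intro x y hy
    have key : ∀ n, ∃ s : ℕ → ℕ, ∀ᶠ m in atTop, ∀ i < n, x m i = s i := by
      intro n
      induction n with
      | zero => exact ⟨0, Eventually.of_forall fun _ i hi => absurd hi (Nat.not_lt_zero i)⟩
      | succ n ih =>
        obtain ⟨s, hs⟩ := ih
        have hball : ∀ᶠ m in atTop, e (x m) ∈ ball y (ε (node s n) / 8) :=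
          hy (ball_mem_nhds y (by linarith [hε (node s n)]))
        obtain ⟨M, hM⟩ := eventually_atTop.1 (hs.and hball)
        refine ⟨Function.update s n (x M n), eventually_atTop.2 ⟨M, fun m hm i hi => ?_⟩⟩
        rcases Nat.lt_succ_iff_lt_or_eq.1 hi with h | rfl
        · rw [Function.update_of_ne h.ne]
          exact (hM m hm).1 i h
        · rw [Function.update_self]
          by_contra hne
          have hd : ∀ j, M ≤ j → dist (e (x j)) (f (c (node s i) (x j i)).1.1) < ε (node s i) / 4 ∧
              dist (e (x j)) y < ε (node s i) / 8 := fun j hj => by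
            refine ⟨?_, (hM j hj).2⟩
            rw [← hnode (x j) s i (hM j hj).1]
            exact hnear (x j) i
          obtain ⟨h1, h2⟩ := hd m hm
          obtain ⟨h3, h4⟩ := hd M le_rfl
          have : ε (node s i) ≤ dist (f (c (node s i) (x m i)).1.1)
              (f (c (node s i) (x M i)).1.1) := hsep (node s i) hne
          have h5 := dist_triangle4 (f (c (node s i) (x m i)).1.1) (e (x m)) (e (x M))
            (f (c (node s i) (x M i)).1.1)
          rw [dist_comm (f _) (e (x m))] at h5
          linarith [dist_triangle_right (e (x m)) (e (x M)) y, hε (node s i)]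
    choose s hs using key
    refine ⟨fun i => s (i + 1) i, tendsto_pi_nhds.2 fun i => tendsto_const_nhds.congr' ?_⟩
    exact (hs (i + 1)).mono fun m hm => (hm i (Nat.lt_succ_self i)).symm
  have hinj : Function.Injective e := fun a b hab => funext fun i => by
    induction i using Nat.strong_induction_on with
    | _ i ih =>
      by_contra hne
      have h1 := hnear a i
      have h2 := hnear b i
      rw [← hnode a b i ih, ← hab] at h2
      have : ε (node a i) ≤ dist (f (c (node a i) (a i)).1.1) (f (c (node a i) (b i)).1.1) :=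
        hsep (node a i) hne
      have := dist_triangle_left (f (c (node a i) (a i)).1.1) (f (c (node a i) (b i)).1.1) (e a)
      linarith [hε (node a i)]
  have hec : Continuous e := hf.comp hcont
  refine ⟨e, IsClosedEmbedding.of_continuous_injective_isClosedMap hec hinj fun C hC => ?_,
    fun _ ⟨x, hx⟩ => ⟨lim x, hx⟩⟩
  refine isSeqClosed_iff_isClosed.1 fun u y hu hy => ?_
  choose x hxC hx using hu
  obtain rfl : (fun m => e (x m)) = u := funext hx
  obtain ⟨b, hb⟩ := hconv x y hy
  exact ⟨b, hC.mem_of_tendsto hb (Eventually.of_forall hxC),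
    tendsto_nhds_unique ((hec.tendsto b).comp hb) hy⟩

end Metric

/-- **The dichotomy.** -/
theorem sigmaBounded_or_closed_copy [TopologicalSpace X] [PolishSpace X] {A : Set X}
    (hA : MeasureTheory.AnalyticSet A) :
    SigmaBounded A ∨ ∃ e : (ℕ → ℕ) → X, IsClosedEmbedding e ∧ range e ⊆ A := by
  rw [MeasureTheory.AnalyticSet] at hA
  rcases hA with rfl | ⟨f, hf, rfl⟩
  · exact .inl ⟨∅, isSigmaCompact_empty, subset_rfl⟩
  let := TopologicalSpace.upgradeIsCompletelyMetrizable X
  let U : Set (ℕ → ℕ) := {z | ∃ n, SigmaBounded (f '' cylinder z n)}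
  have hU : SigmaBounded (f '' U) := by
    let S := {s : List ℕ | ∃ z n, res z n = s ∧ SigmaBounded (f '' cylinder z n)}
    have hK : ∀ s : S, ∃ K, IsSigmaCompact K ∧
        f '' {w | res w s.1.length = s.1} ⊆ K := by
      rintro ⟨_, z, n, rfl, K, hK, hsub⟩
      refine ⟨K, hK, ?_⟩
      rwa [res_length, ← cylinder_eq_res]
    choose K hK hKsub using hK
    refine ⟨⋃ s, K s, isSigmaCompact_iUnion K hK, ?_⟩
    rintro _ ⟨w, ⟨n, hw⟩, rfl⟩
    refine mem_iUnion.2 ⟨⟨res w n, w, n, rfl, hw⟩, hKsub _ ⟨w, ?_, rfl⟩⟩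
    rw [mem_ofPred_eq, res_length]
  by_cases hne : Uᶜ.Nonempty
  · refine .inr (exists_closed_copy hf hne fun z hz n hbd => hz ⟨n, ?_⟩)
    obtain ⟨K, hK, hKsub⟩ := hbd
    obtain ⟨L, hL, hLsub⟩ := hU
    refine ⟨⋃ b : Bool, cond b K L, isSigmaCompact_iUnion _ fun b => by cases b <;> assumption, ?_⟩
    rintro _ ⟨w, hw, rfl⟩
    by_cases hwU : w ∈ U
    exacts [mem_iUnion.2 ⟨false, hLsub ⟨w, hwU, rfl⟩⟩,
      mem_iUnion.2 ⟨true, hKsub ⟨w, ⟨hw, hwU⟩, rfl⟩⟩]
  · rw [not_nonempty_iff_eq_empty, compl_empty_iff] at hne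
    rw [hne, image_univ] at hU
    exact .inl hU

/-- **Baire space is not sigma-compact.** -/
theorem not_isSigmaCompact_univ : ¬IsSigmaCompact (univ : Set (ℕ → ℕ)) := by
  rintro ⟨K, hK, hcov⟩
  obtain ⟨i, z, hz⟩ := nonempty_interior_of_iUnion_of_closed (fun n => (hK n).isClosed) hcov
  obtain ⟨_, ⟨x, n, rfl⟩, hzx, hsub⟩ :=
    (isTopologicalBasis_cylinders fun _ : ℕ => ℕ).exists_subset_of_mem_open hz isOpen_interior
  have himg : (fun w : ℕ → ℕ => w n) '' K i = univ := eq_univ_of_forall fun k =>
    ⟨Function.update x n k, interior_subset (hsub fun j hj => Function.update_of_ne hj.ne k x),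
      Function.update_self n k x⟩
  have := ((hK i).image (continuous_apply n)).finite_of_discrete
  rw [himg] at this
  exact infinite_univ this

/-- A closed copy of Baire space lies in no sigma-compact set. -/
theorem not_sigmaBounded_of_closed_copy [TopologicalSpace X] {A : Set X} {e : (ℕ → ℕ) → X}
    (he : IsClosedEmbedding e) (hsub : range e ⊆ A) : ¬SigmaBounded A := by
  rintro ⟨K, hK, hAK⟩
  refine not_isSigmaCompact_univ ?_
  rw [he.isEmbedding.isSigmaCompact_iff, image_univ]
  exact hK.of_isClosed_subset he.isClosed_range (hsub.trans hAK)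

end FA.Hurewicz
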